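/-
S41 / leaf C13 [COH-COMM] (helper87): the CONCRETE Hecke operators `Hecke15.TX N A ℓ` commute on the
parabolic homomorphisms, with `ℂ` and with `ℤ` coefficients, and the restricted operators
`TL N ℓ : Module.End ℤ ↥(parabolicHoms ℤ (Gamma0 N) ℤ)` form a commuting family
(`TL_commute`), i.e. the literal hypotheses `hT`, `hT'`, `hTq` of
`Contract33.exists_new_congruent_vector` / `TMod49.opHom`.

Proof: `Final49.TX_comm_on_range` (forms-side commutativity through the Eichler–Shimura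
isomorphism `S21`), then descent along `ℤ → ℂ` (`Hecke15.TX_map` + injectivity of the cast).
-/
import Mathlib
import Fermat.Agent.S21
import Fermat.Agent.S41.Hecke15.Gamma0
import Fermat.Agent.S41.Final49.Tail

set_option autoImplicit false

namespace Fermat.Agent.S41.CohComm87

open ModularCurve ModularCurve.Period CongruenceSubgroup
open Fermat.Agent.S41.Hecke15

variable {N : ℕ} [NeZero N]

/-- **`TX ℓ` and `TX m` commute on `parabolicHoms ℂ (Gamma0 N) ℂ`** (any `ℓ m`; for non-primes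
`TX = 0`). -/
theorem TX_comm_complex (ℓ m : ℕ) (w : Additive (Gamma0 N) →+ ℂ)
    (hw : w ∈ parabolicHoms ℂ (Gamma0 N) ℂ) :
    TX N ℂ ℓ (TX N ℂ m w) = TX N ℂ m (TX N ℂ ℓ w) := by
  by_cases hℓ : ℓ.Prime
  · by_cases hm : m.Prime
    · have hr : w ∈ LinearMap.range (periodHomPair N) := by
        rw [(Fermat.Agent.S21.result N).2]
        exact hw
      exact Fermat.Agent.S41.Final49.TX_comm_on_range (fun ℓ => TXlin ℂ N ℂ ℓ)
        final49_hE1 final49_hE2 final49_hE3 hℓ hm w hr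
    · have h0 : TX N ℂ m = 0 := by simp [TX, hm]
      rw [h0, AddMonoidHom.zero_apply, AddMonoidHom.zero_apply, map_zero]
  · have h0 : TX N ℂ ℓ = 0 := by simp [TX, hℓ]
    rw [h0, AddMonoidHom.zero_apply, AddMonoidHom.zero_apply, map_zero]

/-- the cast `ℤ → ℂ` on homs is injective. -/
theorem castComp_injective {Γ : Type*} [AddZeroClass Γ] :
    Function.Injective (fun φ : Γ →+ ℤ => (Int.castAddHom ℂ).comp φ) := by
  intro φ φ' h
  refine AddMonoidHom.ext fun γ => ?_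
  have := DFunLike.congr_fun h γ
  simpa using this

omit [NeZero N] in
/-- the cast `ℤ → ℂ` maps integral parabolic homs to complex parabolic homs. -/
theorem castComp_mem_parabolicHoms {φ : Additive (Gamma0 N) →+ ℤ}
    (hφ : φ ∈ parabolicHoms ℤ (Gamma0 N) ℤ) :
    (Int.castAddHom ℂ).comp φ ∈ parabolicHoms ℂ (Gamma0 N) ℂ := by
  rw [mem_parabolicHoms_iff] at hφ ⊢
  intro γ hγ
  rw [AddMonoidHom.comp_apply, hφ γ hγ, map_zero]

/-- **`TX ℓ` and `TX m` commute on `parabolicHoms ℤ (Gamma0 N) ℤ`.** -/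
theorem TX_comm_int (ℓ m : ℕ) (φ : Additive (Gamma0 N) →+ ℤ)
    (hφ : φ ∈ parabolicHoms ℤ (Gamma0 N) ℤ) :
    TX N ℤ ℓ (TX N ℤ m φ) = TX N ℤ m (TX N ℤ ℓ φ) := by
  apply castComp_injective
  show (Int.castAddHom ℂ).comp (TX N ℤ ℓ (TX N ℤ m φ)) =
    (Int.castAddHom ℂ).comp (TX N ℤ m (TX N ℤ ℓ φ))
  rw [TX_map, TX_map, TX_map, TX_map]
  exact TX_comm_complex ℓ m _ (castComp_mem_parabolicHoms hφ)

variable (N)

/-- The Hecke operator `TX ℓ` restricted to the lattice `parabolicHoms ℤ (Gamma0 N) ℤ`. -/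
noncomputable def TL (ℓ : ℕ) : Module.End ℤ ↥(parabolicHoms ℤ (Gamma0 N) ℤ) :=
  (TXlin ℤ N ℤ ℓ).restrict (fun _ hφ => TX_mem_parabolicHoms ℤ ℓ hφ)

variable {N}

@[simp] theorem TL_coe (ℓ : ℕ) (x : ↥(parabolicHoms ℤ (Gamma0 N) ℤ)) :
    ((TL N ℓ x : ↥(parabolicHoms ℤ (Gamma0 N) ℤ)) : Additive (Gamma0 N) →+ ℤ) =
      TX N ℤ ℓ (x : Additive (Gamma0 N) →+ ℤ) := rfl

/-- pointwise commutation of the restricted operators. -/
theorem TL_comm_apply (ℓ m : ℕ) (x : ↥(parabolicHoms ℤ (Gamma0 N) ℤ)) :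
    TL N ℓ (TL N m x) = TL N m (TL N ℓ x) :=
  Subtype.ext (TX_comm_int ℓ m x.1 x.2)

/-- **The restricted Hecke operators form a commuting family** (the hypotheses `hT`, `hT'` of
`Contract33.exists_new_congruent_vector` and of `TMod49.opHom`). -/
theorem TL_commute (ℓ m : ℕ) : Commute (TL N ℓ) (TL N m) :=
  LinearMap.ext fun x => TL_comm_apply ℓ m x

end Fermat.Agent.S41.CohComm87
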