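/-
S41 / C13 [COH-COMM] (helper87): **commutativity (and every other identity) of the cohomological
Hecke / degeneracy operators on the parabolic homs, FROM the corresponding identity on cusp forms**
through the Eichler–Shimura isomorphism (landed S21) — no double-coset combinatorics.

Abstract core (Mathlib + Prelude only; the Eichler–Shimura range statement is a hypothesis `hES`,
discharged by `Fermat.Agent.S21.result` in `CohComm87/OfS21.lean`):

* `eqOn_parabolicHoms_of_period_equivariant` : FAITHFULNESS. Two additive maps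
  `X Y : Hom(Γ₀(N₁), ℂ) → Hom(Γ₀(N₂), ℂ)` which (a) intertwine the period maps with the SAME map
  `x` on cusp forms (`X (periodMap N₁ f) = periodMap N₂ (x f)`), and (b) commute with the
  involutions `charInvolution` (the "complex conjugation" of `periodHomPair`), agree on
  `parabolicHoms ℂ (Gamma0 N₁) ℂ`.
* `commute_on_parabolicHoms_of_period_equivariant` : the special case `X = A ∘ B`, `Y = B ∘ A`:
  `a ∘ b = b ∘ a` on cusp forms ⟹ `A (B ψ) = B (A ψ)` on parabolic homs.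
* `intertwine_on_parabolicHoms_of_period_equivariant` : `D ∘ T₁ = T₂ ∘ D` on parabolic homs from
  `d ∘ t₁ = t₂ ∘ d` on cusp forms (degeneracy maps vs Hecke operators, two levels).
* ℤ-descent: `castHom`, `castHom_injective`, `castHom_mem_parabolicHoms`,
  `eqOn_int_of_eqOn_complex`, `commute_int_of_commute_complex`.
-/
import Mathlib
import Fermat.Prelude.Def_ModularCurve_PeriodHomPair

set_option autoImplicit false

namespace Fermat.Agent.S41.CohComm87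

open CongruenceSubgroup ModularCurve ModularCurve.Period
open scoped MatrixGroups

/-- the value of `periodHomPair` in terms of `periodMap`. -/
theorem periodHomPair_apply (N : ℕ) (h : ExistsPeriodMapLinear N)
    (f g : CuspForm (Gamma0 N) 2) :
    periodHomPair N (f, g) =
      (periodMap N f + charInvolution N ℂ ℂ (periodMap N f)) +
      (periodMap N g - charInvolution N ℂ ℂ (periodMap N g)) := by
  obtain ⟨pml, hpml, hdef⟩ := periodHomPair_def N h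
  rw [hdef]
  simp only [LinearMap.coprod_apply, LinearMap.comp_apply, LinearMap.add_apply,
    LinearMap.sub_apply, LinearMap.id_apply, hpml]

/-- every parabolic hom is `(1 + ι) P f + (1 - ι) P g` (Eichler–Shimura, S21). -/
theorem exists_eq_of_mem_parabolicHoms (N : ℕ) (h : ExistsPeriodMapLinear N)
    (hES : LinearMap.range (periodHomPair N) = parabolicHoms ℂ (Gamma0 N) ℂ)
    (ψ : Additive (Gamma0 N) →+ ℂ) (hψ : ψ ∈ parabolicHoms ℂ (Gamma0 N) ℂ) :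
    ∃ f g : CuspForm (Gamma0 N) 2,
      ψ = (periodMap N f + charInvolution N ℂ ℂ (periodMap N f)) +
        (periodMap N g - charInvolution N ℂ ℂ (periodMap N g)) := by
  rw [← hES] at hψ
  obtain ⟨⟨f, g⟩, rfl⟩ := hψ
  exact ⟨f, g, periodHomPair_apply N h f g⟩

/-- **FAITHFULNESS of the cohomological realisation.** -/
theorem eqOn_parabolicHoms_of_period_equivariant {N₁ N₂ : ℕ}
    (h : ExistsPeriodMapLinear N₁)
    (hES : LinearMap.range (periodHomPair N₁) = parabolicHoms ℂ (Gamma0 N₁) ℂ)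
    (X Y : (Additive (Gamma0 N₁) →+ ℂ) →+ (Additive (Gamma0 N₂) →+ ℂ))
    (x : CuspForm (Gamma0 N₁) 2 → CuspForm (Gamma0 N₂) 2)
    (hX : ∀ f, X (periodMap N₁ f) = periodMap N₂ (x f))
    (hY : ∀ f, Y (periodMap N₁ f) = periodMap N₂ (x f))
    (hXι : ∀ ψ, X (charInvolution N₁ ℂ ℂ ψ) = charInvolution N₂ ℂ ℂ (X ψ))
    (hYι : ∀ ψ, Y (charInvolution N₁ ℂ ℂ ψ) = charInvolution N₂ ℂ ℂ (Y ψ))
    (ψ : Additive (Gamma0 N₁) →+ ℂ) (hψ : ψ ∈ parabolicHoms ℂ (Gamma0 N₁) ℂ) :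
    X ψ = Y ψ := by
  obtain ⟨f, g, rfl⟩ := exists_eq_of_mem_parabolicHoms N₁ h hES ψ hψ
  simp only [map_add, map_sub, hXι, hYι, hX, hY]

/-- **commutativity on the parabolic homs from commutativity on cusp forms.** -/
theorem commute_on_parabolicHoms_of_period_equivariant {N : ℕ}
    (h : ExistsPeriodMapLinear N)
    (hES : LinearMap.range (periodHomPair N) = parabolicHoms ℂ (Gamma0 N) ℂ)
    (A B : (Additive (Gamma0 N) →+ ℂ) →+ (Additive (Gamma0 N) →+ ℂ))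
    (a b : CuspForm (Gamma0 N) 2 → CuspForm (Gamma0 N) 2)
    (hA : ∀ f, A (periodMap N f) = periodMap N (a f))
    (hB : ∀ f, B (periodMap N f) = periodMap N (b f))
    (hAι : ∀ ψ, A (charInvolution N ℂ ℂ ψ) = charInvolution N ℂ ℂ (A ψ))
    (hBι : ∀ ψ, B (charInvolution N ℂ ℂ ψ) = charInvolution N ℂ ℂ (B ψ))
    (hab : ∀ f, a (b f) = b (a f))
    (ψ : Additive (Gamma0 N) →+ ℂ) (hψ : ψ ∈ parabolicHoms ℂ (Gamma0 N) ℂ) :
    A (B ψ) = B (A ψ) := by
  refine eqOn_parabolicHoms_of_period_equivariant h hES (A.comp B) (B.comp A) (fun f => a (b f))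
    (fun f => ?_) (fun f => ?_) (fun ψ => ?_) (fun ψ => ?_) ψ hψ
  · rw [AddMonoidHom.comp_apply, hB, hA]
  · rw [AddMonoidHom.comp_apply, hA, hB, hab]
  · rw [AddMonoidHom.comp_apply, AddMonoidHom.comp_apply, hBι, hAι]
  · rw [AddMonoidHom.comp_apply, AddMonoidHom.comp_apply, hAι, hBι]

/-- **intertwining `D ∘ T₁ = T₂ ∘ D` on the parabolic homs** (degeneracy maps vs Hecke operators
at two levels) from the same identity on cusp forms. -/
theorem intertwine_on_parabolicHoms_of_period_equivariant {N₁ N₂ : ℕ}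
    (h : ExistsPeriodMapLinear N₁)
    (hES : LinearMap.range (periodHomPair N₁) = parabolicHoms ℂ (Gamma0 N₁) ℂ)
    (D : (Additive (Gamma0 N₁) →+ ℂ) →+ (Additive (Gamma0 N₂) →+ ℂ))
    (T₁ : (Additive (Gamma0 N₁) →+ ℂ) →+ (Additive (Gamma0 N₁) →+ ℂ))
    (T₂ : (Additive (Gamma0 N₂) →+ ℂ) →+ (Additive (Gamma0 N₂) →+ ℂ))
    (d : CuspForm (Gamma0 N₁) 2 → CuspForm (Gamma0 N₂) 2)
    (t₁ : CuspForm (Gamma0 N₁) 2 → CuspForm (Gamma0 N₁) 2)
    (t₂ : CuspForm (Gamma0 N₂) 2 → CuspForm (Gamma0 N₂) 2)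
    (hD : ∀ f, D (periodMap N₁ f) = periodMap N₂ (d f))
    (hT₁ : ∀ f, T₁ (periodMap N₁ f) = periodMap N₁ (t₁ f))
    (hT₂ : ∀ f, T₂ (periodMap N₂ f) = periodMap N₂ (t₂ f))
    (hDι : ∀ ψ, D (charInvolution N₁ ℂ ℂ ψ) = charInvolution N₂ ℂ ℂ (D ψ))
    (hT₁ι : ∀ ψ, T₁ (charInvolution N₁ ℂ ℂ ψ) = charInvolution N₁ ℂ ℂ (T₁ ψ))
    (hT₂ι : ∀ ψ, T₂ (charInvolution N₂ ℂ ℂ ψ) = charInvolution N₂ ℂ ℂ (T₂ ψ))
    (hdt : ∀ f, d (t₁ f) = t₂ (d f))
    (ψ : Additive (Gamma0 N₁) →+ ℂ) (hψ : ψ ∈ parabolicHoms ℂ (Gamma0 N₁) ℂ) :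
    D (T₁ ψ) = T₂ (D ψ) := by
  refine eqOn_parabolicHoms_of_period_equivariant h hES (D.comp T₁) (T₂.comp D)
    (fun f => d (t₁ f)) (fun f => ?_) (fun f => ?_) (fun ψ => ?_) (fun ψ => ?_) ψ hψ
  · rw [AddMonoidHom.comp_apply, hT₁, hD]
  · rw [AddMonoidHom.comp_apply, hD, hT₂, hdt]
  · rw [AddMonoidHom.comp_apply, AddMonoidHom.comp_apply, hT₁ι, hDι]
  · rw [AddMonoidHom.comp_apply, AddMonoidHom.comp_apply, hDι, hT₂ι]

/-! ### descent to `ℤ`-valued homs -/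

section Descent

variable {Γ Γ' : Subgroup SL(2, ℤ)}

/-- `ψ₀ ↦ (ℤ → ℂ) ∘ ψ₀`. -/
def castHom (Γ : Subgroup SL(2, ℤ)) : (Additive Γ →+ ℤ) →+ (Additive Γ →+ ℂ) where
  toFun ψ := (Int.castAddHom ℂ).comp ψ
  map_zero' := by ext; simp
  map_add' ψ ψ' := by ext; simp

@[simp] theorem castHom_apply (ψ : Additive Γ →+ ℤ) (γ : Additive Γ) :
    castHom Γ ψ γ = ((ψ γ : ℤ) : ℂ) := rfl

theorem castHom_injective : Function.Injective (castHom Γ) := by
  intro ψ ψ' h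
  refine AddMonoidHom.ext fun γ => ?_
  have := DFunLike.congr_fun h γ
  rw [castHom_apply, castHom_apply] at this
  exact_mod_cast this

theorem castHom_mem_parabolicHoms {ψ : Additive Γ →+ ℤ} (hψ : ψ ∈ parabolicHoms ℤ Γ ℤ) :
    castHom Γ ψ ∈ parabolicHoms ℂ Γ ℂ := by
  intro γ hγ
  show ((ψ (Additive.ofMul γ) : ℤ) : ℂ) = 0
  rw [hψ γ hγ, Int.cast_zero]

/-- an identity between two integral operators holds on the integral parabolic homs as soon as it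
holds for complex operators compatible with them. -/
theorem eqOn_int_of_eqOn_complex
    (X₀ Y₀ : (Additive Γ →+ ℤ) →+ (Additive Γ' →+ ℤ))
    (X Y : (Additive Γ →+ ℂ) →+ (Additive Γ' →+ ℂ))
    (hX : ∀ ψ₀, X (castHom Γ ψ₀) = castHom Γ' (X₀ ψ₀))
    (hY : ∀ ψ₀, Y (castHom Γ ψ₀) = castHom Γ' (Y₀ ψ₀))
    (hXY : ∀ ψ ∈ parabolicHoms ℂ Γ ℂ, X ψ = Y ψ)
    (ψ₀ : Additive Γ →+ ℤ) (hψ₀ : ψ₀ ∈ parabolicHoms ℤ Γ ℤ) : X₀ ψ₀ = Y₀ ψ₀ := by
  apply castHom_injective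
  rw [← hX, ← hY]
  exact hXY _ (castHom_mem_parabolicHoms hψ₀)

/-- **`ℤ`-descent of commutativity.** -/
theorem commute_int_of_commute_complex
    (A₀ B₀ : (Additive Γ →+ ℤ) →+ (Additive Γ →+ ℤ))
    (A B : (Additive Γ →+ ℂ) →+ (Additive Γ →+ ℂ))
    (hA : ∀ ψ₀, A (castHom Γ ψ₀) = castHom Γ (A₀ ψ₀))
    (hB : ∀ ψ₀, B (castHom Γ ψ₀) = castHom Γ (B₀ ψ₀))
    (hAB : ∀ ψ ∈ parabolicHoms ℂ Γ ℂ, A (B ψ) = B (A ψ))
    (ψ₀ : Additive Γ →+ ℤ) (hψ₀ : ψ₀ ∈ parabolicHoms ℤ Γ ℤ) : A₀ (B₀ ψ₀) = B₀ (A₀ ψ₀) := by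
  refine eqOn_int_of_eqOn_complex (A₀.comp B₀) (B₀.comp A₀) (A.comp B) (B.comp A)
    (fun ψ₀ => ?_) (fun ψ₀ => ?_) (fun ψ hψ => hAB ψ hψ) ψ₀ hψ₀
  · rw [AddMonoidHom.comp_apply, AddMonoidHom.comp_apply, hB, hA]
  · rw [AddMonoidHom.comp_apply, AddMonoidHom.comp_apply, hA, hB]

end Descent

end Fermat.Agent.S41.CohComm87
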