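/-
S41 / C13 [COH-COMM] (helper87): two naturality properties of helper15's abstract double-coset
operator `Hecke15.heckeHom`, needed to feed `CohComm87.commute_on_parabolicHomsInt`:

* (N1) `heckeHom_comp_coeff` : naturality in the coefficient group,
  `heckeHom (θ ∘ φ) = θ ∘ heckeHom φ` for every additive `θ : A →+ A'`
  (`θ = Int.castAddHom ℂ` : compatibility of the integral and the complex operators;
   `θ = Int.castAddHom (ZMod p)` : reduction mod `p`).
* (N2) `heckeHom_comp_auto` : compatibility with automorphisms.  If `j : Γ →* Γ`, `j' : Γ' →* Γ'`,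
  `J : G →* G` satisfy `e ∘ j = J ∘ e`, `e' ∘ j' = J ∘ e'`, and the family is `J`-stable up to
  `e(Γ)` (`J (α i) = e (d i) * α (τ i)`), then `heckeHom (φ ∘ j) = (heckeHom φ) ∘ j'`
  (`J` = conjugation by `diag(1,-1)` : compatibility with `charInvolution`).
-/
import Mathlib
import Fermat.Agent.S41.Hecke15.Abstract

set_option autoImplicit false

namespace Fermat.Agent.S41.CohComm87

open Fermat.Agent.S41.Hecke15
open scoped BigOperators

variable {G Γ Γ' : Type*} [Group G] [Group Γ] [Group Γ']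
variable {A A' : Type*} [AddCommGroup A] [AddCommGroup A']
variable {ι : Type*} [Fintype ι]

/-- **(N1) naturality in the coefficients.** -/
theorem heckeHom_comp_coeff (e : Γ →* G) (he : Function.Injective e) (e' : Γ' →* G)
    (α : ι → G) (hα : IsStable e e' α) (θ : A →+ A') (φ : Additive Γ →+ A) :
    heckeHom e he e' α hα (θ.comp φ) = θ.comp (heckeHom e he e' α hα φ) := by
  refine AddMonoidHom.ext fun γ' => ?_
  obtain ⟨σ, c, h⟩ := hα γ'.toMul
  have h1 := heckeHom_apply_of_reps e he e' α hα (θ.comp φ) γ'.toMul σ c h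
  have h2 := heckeHom_apply_of_reps e he e' α hα φ γ'.toMul σ c h
  rw [AddMonoidHom.comp_apply]
  change heckeHom e he e' α hα (θ.comp φ) (Additive.ofMul γ'.toMul) =
    θ (heckeHom e he e' α hα φ (Additive.ofMul γ'.toMul))
  rw [h1, h2, map_sum]
  rfl

/-- **(N2) compatibility with automorphisms.** -/
theorem heckeHom_comp_auto (e : Γ →* G) (he : Function.Injective e) (e' : Γ' →* G)
    (α : ι → G) (hα : IsStable e e' α)
    (j : Γ →* Γ) (j' : Γ' →* Γ') (J : G →* G)
    (hj : ∀ γ, e (j γ) = J (e γ)) (hj' : ∀ γ', e' (j' γ') = J (e' γ'))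
    (τ : ι ≃ ι) (d : ι → Γ) (hJ : ∀ i, J (α i) = e (d i) * α (τ i))
    (φ : Additive Γ →+ A) :
    heckeHom e he e' α hα (φ.comp (MonoidHom.toAdditive j)) =
      (heckeHom e he e' α hα φ).comp (MonoidHom.toAdditive j') := by
  refine AddMonoidHom.ext fun γ' => ?_
  obtain ⟨σ, c, h⟩ := hα γ'.toMul
  -- representatives for `j' γ'`
  have hrep : ∀ k, α k * e' (j' γ'.toMul) =
      e ((d (τ.symm k))⁻¹ * j (c (τ.symm k)) * d (σ (τ.symm k))) *
        α (((τ.symm.trans σ).trans τ) k) := by
    intro k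
    obtain ⟨i, rfl⟩ := τ.surjective k
    simp only [Equiv.symm_apply_apply, Equiv.trans_apply]
    have h1 : J (α i * e' γ'.toMul) = J (e (c i) * α (σ i)) := by rw [h i]
    rw [map_mul, map_mul, hJ i, hJ (σ i), ← hj', ← hj] at h1
    -- h1 : e (d i) * α (τ i) * e' (j' γ') = e (j (c i)) * (e (d (σ i)) * α (τ (σ i)))
    rw [map_mul, map_mul, map_inv]
    calc α (τ i) * e' (j' γ'.toMul)
        = (e (d i))⁻¹ * (e (d i) * α (τ i) * e' (j' γ'.toMul)) := by group
      _ = (e (d i))⁻¹ * (e (j (c i)) * (e (d (σ i)) * α (τ (σ i)))) := by rw [h1]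
      _ = (e (d i))⁻¹ * e (j (c i)) * e (d (σ i)) * α (τ (σ i)) := by group
  have h2 := heckeHom_apply_of_reps e he e' α hα φ (j' γ'.toMul) _ _ hrep
  have h1 := heckeHom_apply_of_reps e he e' α hα (φ.comp (MonoidHom.toAdditive j)) γ'.toMul σ c h
  change heckeHom e he e' α hα (φ.comp (MonoidHom.toAdditive j)) (Additive.ofMul γ'.toMul) =
    heckeHom e he e' α hα φ (Additive.ofMul (j' γ'.toMul))
  rw [h1, h2]
  -- the `d`-terms cancel
  rw [← Equiv.sum_comp τ (fun k => φ (Additive.ofMul
    ((d (τ.symm k))⁻¹ * j (c (τ.symm k)) * d (σ (τ.symm k)))))]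
  simp only [Equiv.symm_apply_apply, ofMul_mul, ofMul_inv, map_add, map_neg,
    Finset.sum_add_distrib, Finset.sum_neg_distrib]
  rw [Equiv.sum_comp σ (fun i => φ (Additive.ofMul (d i)))]
  simp only [AddMonoidHom.comp_apply]
  have : ∀ i, (MonoidHom.toAdditive j) (Additive.ofMul (c i)) = Additive.ofMul (j (c i)) :=
    fun i => rfl
  simp only [this]
  abel

end Fermat.Agent.S41.CohComm87
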