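/-
S41 / C13 [COH-COMM] (helper87): the abstract statements of `CohComm87/Core.lean` with the
Eichler–Shimura hypotheses discharged by the landed S21 (`Fermat.Agent.S21.result`,
`S21.PeriodPrim.existsPeriodMapLinear`), plus the `ℤ`-forms.
-/
import Fermat.Agent.S41.CohComm87.Core
import Fermat.Agent.S21

set_option autoImplicit false

namespace Fermat.Agent.S41.CohComm87

open CongruenceSubgroup ModularCurve ModularCurve.Period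
open scoped MatrixGroups

/-- **FAITHFULNESS**, unconditional. -/
theorem eqOn_parabolicHoms {N₁ N₂ : ℕ} [NeZero N₁]
    (X Y : (Additive (Gamma0 N₁) →+ ℂ) →+ (Additive (Gamma0 N₂) →+ ℂ))
    (x : CuspForm (Gamma0 N₁) 2 → CuspForm (Gamma0 N₂) 2)
    (hX : ∀ f, X (periodMap N₁ f) = periodMap N₂ (x f))
    (hY : ∀ f, Y (periodMap N₁ f) = periodMap N₂ (x f))
    (hXι : ∀ ψ, X (charInvolution N₁ ℂ ℂ ψ) = charInvolution N₂ ℂ ℂ (X ψ))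
    (hYι : ∀ ψ, Y (charInvolution N₁ ℂ ℂ ψ) = charInvolution N₂ ℂ ℂ (Y ψ))
    (ψ : Additive (Gamma0 N₁) →+ ℂ) (hψ : ψ ∈ parabolicHoms ℂ (Gamma0 N₁) ℂ) :
    X ψ = Y ψ :=
  eqOn_parabolicHoms_of_period_equivariant
    (Fermat.Agent.S21.PeriodPrim.existsPeriodMapLinear (N := N₁))
    (Fermat.Agent.S21.result N₁).2 X Y x hX hY hXι hYι ψ hψ

/-- **commutativity on `parabolicHoms ℂ (Gamma0 N) ℂ`**, unconditional. -/
theorem commute_on_parabolicHoms {N : ℕ} [NeZero N]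
    (A B : (Additive (Gamma0 N) →+ ℂ) →+ (Additive (Gamma0 N) →+ ℂ))
    (a b : CuspForm (Gamma0 N) 2 → CuspForm (Gamma0 N) 2)
    (hA : ∀ f, A (periodMap N f) = periodMap N (a f))
    (hB : ∀ f, B (periodMap N f) = periodMap N (b f))
    (hAι : ∀ ψ, A (charInvolution N ℂ ℂ ψ) = charInvolution N ℂ ℂ (A ψ))
    (hBι : ∀ ψ, B (charInvolution N ℂ ℂ ψ) = charInvolution N ℂ ℂ (B ψ))
    (hab : ∀ f, a (b f) = b (a f))
    (ψ : Additive (Gamma0 N) →+ ℂ) (hψ : ψ ∈ parabolicHoms ℂ (Gamma0 N) ℂ) :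
    A (B ψ) = B (A ψ) :=
  commute_on_parabolicHoms_of_period_equivariant
    (Fermat.Agent.S21.PeriodPrim.existsPeriodMapLinear (N := N))
    (Fermat.Agent.S21.result N).2 A B a b hA hB hAι hBι hab ψ hψ

/-- **intertwining on `parabolicHoms ℂ (Gamma0 N₁) ℂ`**, unconditional. -/
theorem intertwine_on_parabolicHoms {N₁ N₂ : ℕ} [NeZero N₁]
    (D : (Additive (Gamma0 N₁) →+ ℂ) →+ (Additive (Gamma0 N₂) →+ ℂ))
    (T₁ : (Additive (Gamma0 N₁) →+ ℂ) →+ (Additive (Gamma0 N₁) →+ ℂ))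
    (T₂ : (Additive (Gamma0 N₂) →+ ℂ) →+ (Additive (Gamma0 N₂) →+ ℂ))
    (d : CuspForm (Gamma0 N₁) 2 → CuspForm (Gamma0 N₂) 2)
    (t₁ : CuspForm (Gamma0 N₁) 2 → CuspForm (Gamma0 N₁) 2)
    (t₂ : CuspForm (Gamma0 N₂) 2 → CuspForm (Gamma0 N₂) 2)
    (hD : ∀ f, D (periodMap N₁ f) = periodMap N₂ (d f))
    (hT₁ : ∀ f, T₁ (periodMap N₁ f) = periodMap N₁ (t₁ f))
    (hT₂ : ∀ f, T₂ (periodMap N₂ f) = periodMap N₂ (t₂ f))
    (hDι : ∀ ψ, D (charInvolution N₁ ℂ ℂ ψ) = charInvolution N₂ ℂ ℂ (D ψ))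
    (hT₁ι : ∀ ψ, T₁ (charInvolution N₁ ℂ ℂ ψ) = charInvolution N₁ ℂ ℂ (T₁ ψ))
    (hT₂ι : ∀ ψ, T₂ (charInvolution N₂ ℂ ℂ ψ) = charInvolution N₂ ℂ ℂ (T₂ ψ))
    (hdt : ∀ f, d (t₁ f) = t₂ (d f))
    (ψ : Additive (Gamma0 N₁) →+ ℂ) (hψ : ψ ∈ parabolicHoms ℂ (Gamma0 N₁) ℂ) :
    D (T₁ ψ) = T₂ (D ψ) :=
  intertwine_on_parabolicHoms_of_period_equivariant
    (Fermat.Agent.S21.PeriodPrim.existsPeriodMapLinear (N := N₁))
    (Fermat.Agent.S21.result N₁).2 D T₁ T₂ d t₁ t₂ hD hT₁ hT₂ hDι hT₁ι hT₂ι hdt ψ hψ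

/-- **commutativity on the integral lattice `parabolicHoms ℤ (Gamma0 N) ℤ`**, unconditional: for
integral operators `A₀ B₀` whose complexifications `A B` are period-equivariant lifts of commuting
operators `a b` on cusp forms and commute with `charInvolution`. -/
theorem commute_on_parabolicHomsInt {N : ℕ} [NeZero N]
    (A₀ B₀ : (Additive (Gamma0 N) →+ ℤ) →+ (Additive (Gamma0 N) →+ ℤ))
    (A B : (Additive (Gamma0 N) →+ ℂ) →+ (Additive (Gamma0 N) →+ ℂ))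
    (hA₀ : ∀ ψ₀, A (castHom (Gamma0 N) ψ₀) = castHom (Gamma0 N) (A₀ ψ₀))
    (hB₀ : ∀ ψ₀, B (castHom (Gamma0 N) ψ₀) = castHom (Gamma0 N) (B₀ ψ₀))
    (a b : CuspForm (Gamma0 N) 2 → CuspForm (Gamma0 N) 2)
    (hA : ∀ f, A (periodMap N f) = periodMap N (a f))
    (hB : ∀ f, B (periodMap N f) = periodMap N (b f))
    (hAι : ∀ ψ, A (charInvolution N ℂ ℂ ψ) = charInvolution N ℂ ℂ (A ψ))
    (hBι : ∀ ψ, B (charInvolution N ℂ ℂ ψ) = charInvolution N ℂ ℂ (B ψ))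
    (hab : ∀ f, a (b f) = b (a f))
    (ψ₀ : Additive (Gamma0 N) →+ ℤ) (hψ₀ : ψ₀ ∈ parabolicHoms ℤ (Gamma0 N) ℤ) :
    A₀ (B₀ ψ₀) = B₀ (A₀ ψ₀) :=
  commute_int_of_commute_complex A₀ B₀ A B hA₀ hB₀
    (fun ψ hψ => commute_on_parabolicHoms A B a b hA hB hAι hBι hab ψ hψ) ψ₀ hψ₀

end Fermat.Agent.S41.CohComm87
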